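import Fermat.Agent.S33.OP.Main
import Fermat.Agent.S33.NT
import Fermat.Agent.S32.Top

set_option autoImplicit false

/-!
# S33 / OP / Final : chapter (O) for `V_{p^n}(M)`, `p ∤ M`, `p` odd, from the pairing criterion of S19
-/

namespace Fermat.Agent.S33.OP

open Fermat.Agent Fermat.Agent.S19 Fermat.Agent.S31 Fermat.Agent.S32

/-- `NT (I.J₀(M)[p^n])`. -/
theorem nt_TM (M p : ℕ) [NeZero M] (hp : p.Prime) (hp2 : p ≠ 2) (hpM : ¬ p ∣ M) (n : ℕ)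
    (A : ValuationSubring Qb) (hA : A.LiesOverPrime p) :
    NT (A.inertiaSubgroupIn ℚ) (DistribMulAction.toAddMonoidEnd GQ (TM M ((p ^ n : ℕ) : ℤ)))
      (aug (A.inertiaSubgroupIn ℚ) (DistribMulAction.toAddMonoidEnd GQ (TM M ((p ^ n : ℕ) : ℤ)))) := by
  have : Fact p.Prime := ⟨hp⟩
  have : NeZero (p ^ n) := ⟨pow_ne_zero _ hp.ne_zero⟩
  have hm : (0 : ℤ) < ((p ^ n : ℕ) : ℤ) := Int.natCast_pos.2 (pow_pos hp.pos n)
  have hQ : QIntStatement M p := RED.qint hp hpM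
  obtain ⟨e, hW, hne, hmul, heq⟩ :=
    Pair.pair M wr ((p ^ n : ℕ) : ℤ) (fun x => ND.exists_isRep M hm.ne' x)
  have hnd := ND.nd wr M ((p ^ n : ℕ) : ℤ) hm
  have hinteg := integ M p ((p ^ n : ℕ) : ℤ) hm (RED.l1 hp hpM) hQ (Move.l3 M p hp hpM)
    (Lat.lat M hp hQ) norm pch
  have hfin : Finite (TM M ((p ^ n : ℕ) : ℤ)) := finite_TM M hm.ne'
  refine nt_of_pairing hp hp2 n
    (DistribMulAction.toAddMonoidEnd GQ (TM M ((p ^ n : ℕ) : ℤ))) e hmul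
    (Psi.e_add_right wr hW) hne heq (hnd e hW) ?_ A hA (fun x => hinteg e hW A hA x)
  intro x
  apply Subtype.ext
  have hx : ((p ^ n : ℕ) : ℤ) • x.1 = 0 := (Submodule.mem_torsionBy_iff _ _).1 x.2
  have h2 : ((p ^ n • x : TM M ((p ^ n : ℕ) : ℤ)) : _) = (p ^ n) • x.1 := rfl
  rw [h2, ← natCast_zsmul]
  exact hx

/-- **(O)** : `NT (I.V_{p^n}(M))`. -/
theorem o_final (M p : ℕ) [NeZero M] (hp : p.Prime) (hp2 : p ≠ 2) (hpM : ¬ p ∣ M) (n : ℕ)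
    (A : ValuationSubring Qb) (hA : A.LiesOverPrime p) :
    NT (A.inertiaSubgroupIn ℚ) (GES.actV M (p ^ n))
      (aug (A.inertiaSubgroupIn ℚ) (GES.actV M (p ^ n))) := by
  have : NeZero (p ^ n) := ⟨pow_ne_zero _ hp.ne_zero⟩
  have hφ : ∀ s ∈ A.inertiaSubgroupIn ℚ, ∀ x, (Psi.psi M (p ^ n)).toAddMonoidHom
      (GES.actV M (p ^ n) s x) =
      DistribMulAction.toAddMonoidEnd GQ (TM M ((p ^ n : ℕ) : ℤ)) s
        ((Psi.psi M (p ^ n)).toAddMonoidHom x) := fun s _ x => Psi.psi_rhoV M (p ^ n) s x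
  refine NT.of_injective (A.inertiaSubgroupIn ℚ) (GES.actV M (p ^ n))
    (DistribMulAction.toAddMonoidEnd GQ (TM M ((p ^ n : ℕ) : ℤ)))
    (Psi.psi M (p ^ n)).toAddMonoidHom hφ (Psi.psi M (p ^ n)).injective
    (nt_TM M p hp hp2 hpM n A hA) ?_
  intro x hx
  exact map_aug_le (A.inertiaSubgroupIn ℚ) (GES.actV M (p ^ n))
    (DistribMulAction.toAddMonoidEnd GQ (TM M ((p ^ n : ℕ) : ℤ)))
    (Psi.psi M (p ^ n)).toAddMonoidHom hφ ⟨x, hx, rfl⟩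

end Fermat.Agent.S33.OP
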