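import Mathlib

set_option autoImplicit false

/-!
# S33 / OP / Key : descent of divisibility

`f = ∑ m_k φ_k` on an `I`-stable set `S`, `f` and the `φ_k` are `I`-equivariant, `φ_k` is `A`-valued,
`m_k ∈ 𝔪_A`; every `I`-fixed element of `𝔪_A` lies in `c A`.  Then `f` has values in `c A`.
-/

namespace Fermat.Agent.S33.OP

local notation "Qb" => AlgebraicClosure ℚ
local notation "Gal" => (AlgebraicClosure ℚ ≃ₐ[ℚ] AlgebraicClosure ℚ)

theorem key_aux (c : Qb) (A : ValuationSubring Qb) (I : Subgroup Gal)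
    (hU : ∀ a ∈ A.nonunits, (∀ s ∈ I, s a = a) → ∃ b ∈ A, a = c * b)
    {Y : Type} [AddCommGroup Y] (act : Gal →* AddMonoid.End Y) (S : Set Y)
    (hS : ∀ s ∈ I, ∀ y ∈ S, act s y ∈ S)
    {κ : Type} (φ : κ → Y → Qb)
    (f : Y → Qb) (hf : ∀ s ∈ I, ∀ y ∈ S, f (act s y) = s (f y)) (n : ℕ) :
    ∀ (T : Finset κ), T.card = n →
    (∀ k ∈ T, ∀ s ∈ I, ∀ y, φ k (act s y) = s (φ k y)) → (∀ k ∈ T, ∀ y, φ k y ∈ A) →
    ∀ (m : κ → Qb), (∀ k ∈ T, m k ∈ A.nonunits) →
    (∀ y ∈ S, f y = ∑ k ∈ T, m k * φ k y) →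
    ∀ y ∈ S, ∃ b ∈ A, f y = c * b := by
  classical
  induction n with
  | zero =>
    intro T hT _ _ m _ hfm y hy
    rw [Finset.card_eq_zero] at hT
    refine ⟨0, A.zero_mem, ?_⟩
    rw [hfm y hy, hT, Finset.sum_empty, mul_zero]
  | succ n ih =>
    intro T hT hφ hφA m hm hfm y hy
    by_cases hfix : ∀ k ∈ T, ∀ s ∈ I, s (m k) = m k
    · have h1 : ∀ k, ∃ b, k ∈ T → (b ∈ A ∧ m k = c * b) := by
        intro k
        by_cases hk : k ∈ T
        · obtain ⟨b, hb, hmb⟩ := hU (m k) (hm k hk) (hfix k hk)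
          exact ⟨b, fun _ => ⟨hb, hmb⟩⟩
        · exact ⟨0, fun h => absurd h hk⟩
      choose b hb using h1
      refine ⟨∑ k ∈ T, b k * φ k y,
        Subring.sum_mem A.toSubring fun k hk => A.mul_mem _ _ (hb k hk).1 (hφA k hk y), ?_⟩
      rw [hfm y hy, Finset.mul_sum]
      refine Finset.sum_congr rfl fun k hk => ?_
      rw [(hb k hk).2, mul_assoc]
    · push Not at hfix
      obtain ⟨k0, hk0, s, hs, hne⟩ := hfix
      let a : κ → Qb := fun k => s (m k) - m k
      have hrel : ∀ z ∈ S, ∑ k ∈ T, a k * φ k z = 0 := by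
        intro z hz
        have hz' : act s⁻¹ z ∈ S := hS _ (I.inv_mem hs) z hz
        have hzz : act s (act s⁻¹ z) = z := by
          have : (act s * act s⁻¹) z = z := by
            rw [← map_mul, mul_inv_cancel, map_one]; rfl
          exact this
        have h1 : f z = ∑ k ∈ T, s (m k) * φ k z := by
          conv_lhs => rw [← hzz]
          rw [hf s hs _ hz', hfm _ hz', map_sum]
          refine Finset.sum_congr rfl fun k hk => ?_
          rw [map_mul, ← hφ k hk s hs, hzz]
        have h2 := hfm z hz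
        simp only [a, sub_mul, Finset.sum_sub_distrib]
        rw [← h1, ← h2, sub_self]
      obtain ⟨j, hj, hmax⟩ := Finset.exists_max_image T (fun k => A.valuation (a k)) ⟨k0, hk0⟩
      have ha0 : a k0 ≠ 0 := sub_ne_zero.2 hne
      have haj : a j ≠ 0 := by
        intro h0
        have h1 := hmax k0 hk0
        simp only [h0, map_zero] at h1
        exact ha0 ((map_eq_zero _).1 (le_antisymm h1 zero_le))
      have hvj : 0 < A.valuation (a j) := zero_lt_iff.2 ((map_ne_zero _).2 haj)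
      let t : κ → Qb := fun k => a k / a j
      have ht : ∀ k ∈ T, t k ∈ A := by
        intro k hk
        rw [← A.valuation_le_one_iff, map_div₀]
        exact (div_le_one₀ hvj).2 (hmax k hk)
      have hφj : ∀ z ∈ S, φ j z = - ∑ k ∈ T.erase j, t k * φ k z := by
        intro z hz
        have h1 := hrel z hz
        rw [← Finset.add_sum_erase T _ hj] at h1
        have h2 : ∑ k ∈ T.erase j, t k * φ k z = (∑ k ∈ T.erase j, a k * φ k z) / a j := by
          rw [Finset.sum_div]
          refine Finset.sum_congr rfl fun k _ => ?_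
          simp only [t]; ring
        rw [h2]
        field_simp
        linear_combination h1
      refine ih (T.erase j) (by rw [Finset.card_erase_of_mem hj, hT]; rfl)
        (fun k hk => hφ k (Finset.mem_of_mem_erase hk))
        (fun k hk => hφA k (Finset.mem_of_mem_erase hk))
        (fun k => m k - m j * t k) ?_ ?_ y hy
      · intro k hk
        have hkT := Finset.mem_of_mem_erase hk
        rw [ValuationSubring.mem_nonunits_iff]
        apply Valuation.map_sub_lt
        · exact (ValuationSubring.mem_nonunits_iff A).1 (hm k hkT)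
        · rw [map_mul]
          exact mul_lt_one_of_lt_of_le ((ValuationSubring.mem_nonunits_iff A).1 (hm j hj))
            ((A.valuation_le_one_iff _).2 (ht k hkT))
      · intro z hz
        rw [hfm z hz, ← Finset.add_sum_erase T _ hj, hφj z hz]
        simp only [sub_mul, Finset.sum_sub_distrib]
        rw [mul_neg, Finset.mul_sum]
        have : ∀ k, m j * (t k * φ k z) = m j * t k * φ k z := fun k => by ring
        simp only [this]
        ring

/-- **KEY**. -/
theorem key (c : Qb) (A : ValuationSubring Qb) (I : Subgroup Gal)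
    (hU : ∀ a ∈ A.nonunits, (∀ s ∈ I, s a = a) → ∃ b ∈ A, a = c * b)
    {Y : Type} [AddCommGroup Y] (act : Gal →* AddMonoid.End Y) (S : Set Y)
    (hS : ∀ s ∈ I, ∀ y ∈ S, act s y ∈ S)
    {κ : Type} (T : Finset κ) (φ : κ → Y → Qb)
    (hφ : ∀ k ∈ T, ∀ s ∈ I, ∀ y, φ k (act s y) = s (φ k y)) (hφA : ∀ k ∈ T, ∀ y, φ k y ∈ A)
    (m : κ → Qb) (hm : ∀ k ∈ T, m k ∈ A.nonunits)
    (f : Y → Qb) (hf : ∀ s ∈ I, ∀ y ∈ S, f (act s y) = s (f y))
    (hfm : ∀ y ∈ S, f y = ∑ k ∈ T, m k * φ k y) :
    ∀ y ∈ S, ∃ b ∈ A, f y = c * b :=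
  key_aux c A I hU act S hS φ f hf T.card T rfl hφ hφA m hm hfm

end Fermat.Agent.S33.OP
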