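import Fermat.Agent.S33.UT
import Fermat.Agent.S05.InertiaFacts

set_option autoImplicit false

/-!
# S33 / OP / Small : `e_x ≡ 1` modulo `𝔪_A O_A` for `x ∈ I.M`
-/

namespace Fermat.Agent.S33.OP

open Fermat.Agent.S05

local notation "Qb" => AlgebraicClosure ℚ
local notation "Gal" => (AlgebraicClosure ℚ ≃ₐ[ℚ] AlgebraicClosure ℚ)

variable {M : Type} [AddCommGroup M] (act : Gal →* AddMonoid.End M) (A : ValuationSubring Qb)

/-- the equivariant `A`-valued functions. -/
def Phi : Set (M → Qb) := {φ : M → Qb | (∀ σ y, φ (act σ y) = σ (φ y)) ∧ ∀ y, φ y ∈ A}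

/-- `O_A`. -/
noncomputable def OA : Submodule A (M → Qb) := Submodule.span A (Phi act A)

/-- `𝔪_A O_A`. -/
noncomputable def MA : Submodule A (M → Qb) :=
  Submodule.span A {ψ | ∃ m ∈ A.nonunits, ∃ φ ∈ Phi act A, ψ = fun y => m * φ y}

omit [AddCommGroup M] in
theorem smul_fun_apply (a : A) (f : M → Qb) (y : M) : (a • f) y = (a : Qb) * f y := rfl

variable {act A}

theorem Phi.mul {φ ψ : M → Qb} (h1 : φ ∈ Phi act A) (h2 : ψ ∈ Phi act A) : φ * ψ ∈ Phi act A :=
  ⟨fun σ y => by rw [Pi.mul_apply, Pi.mul_apply, h1.1, h2.1, map_mul],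
    fun y => A.mul_mem _ _ (h1.2 y) (h2.2 y)⟩

/-- `𝔪_A O_A · O_A ⊆ 𝔪_A O_A`. -/
theorem MA_mul_OA {ψ g : M → Qb} (hψ : ψ ∈ MA act A) (hg : g ∈ OA act A) : ψ * g ∈ MA act A := by
  induction hg using Submodule.span_induction with
  | mem φ' hφ' =>
    induction hψ using Submodule.span_induction with
    | mem ψ0 h0 =>
      obtain ⟨m, hm, φ, hφ, rfl⟩ := h0
      refine Submodule.subset_span ⟨m, hm, φ * φ', Phi.mul hφ hφ', ?_⟩
      funext y
      simp only [Pi.mul_apply]
      ring
    | zero => rw [zero_mul]; exact Submodule.zero_mem _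
    | add a b _ _ ha hb => rw [add_mul]; exact Submodule.add_mem _ ha hb
    | smul a x _ hx =>
      have : (a • x) * φ' = a • (x * φ') := by
        funext y
        simp only [Pi.mul_apply, smul_fun_apply]
        ring
      rw [this]; exact Submodule.smul_mem _ _ hx
  | zero => rw [mul_zero]; exact Submodule.zero_mem _
  | add a b _ _ ha hb => rw [mul_add]; exact Submodule.add_mem _ ha hb
  | smul a x _ hx =>
    have : ψ * (a • x) = a • (ψ * x) := by
      funext y
      simp only [Pi.mul_apply, smul_fun_apply]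
      ring
    rw [this]; exact Submodule.smul_mem _ _ hx

/-- `m O_A ⊆ 𝔪_A O_A` for `m ∈ 𝔪_A`. -/
theorem nonunit_mul_OA {m : Qb} (hm : m ∈ A.nonunits) {g : M → Qb} (hg : g ∈ OA act A) :
    (fun y => m * g y) ∈ MA act A := by
  induction hg using Submodule.span_induction with
  | mem φ' hφ' => exact Submodule.subset_span ⟨m, hm, φ', hφ', rfl⟩
  | zero =>
    have : (fun y => m * (0 : M → Qb) y) = 0 := by funext y; simp
    rw [this]; exact Submodule.zero_mem _
  | add a b _ _ ha hb =>
    have : (fun y => m * (a + b) y) = (fun y => m * a y) + fun y => m * b y := by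
      funext y; simp only [Pi.add_apply]; ring
    rw [this]; exact Submodule.add_mem _ ha hb
  | smul a x _ hx =>
    have : (fun y => m * (a • x) y) = a • fun y => m * x y := by
      funext y
      simp only [smul_fun_apply]
      ring
    rw [this]; exact Submodule.smul_mem _ _ hx

theorem act_act_inv (s : Gal) (z : M) : act s (act s⁻¹ z) = z := by
  have : (act s * act s⁻¹) z = z := by
    rw [← map_mul, mul_inv_cancel, map_one]; rfl
  exact this

/-- the twisted function `s ⋆ f` is congruent to `f`. -/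
theorem twist_sub_mem {s : Gal} (hs : s ∈ A.inertiaSubgroupIn ℚ) {g : M → Qb}
    (hg : g ∈ OA act A) : ((fun y => s (g (act s⁻¹ y))) - g) ∈ MA act A := by
  induction hg using Submodule.span_induction with
  | mem φ' hφ' =>
    have : ((fun y => s (φ' (act s⁻¹ y))) - φ') = 0 := by
      funext y
      simp only [Pi.sub_apply, Pi.zero_apply]
      rw [← hφ'.1, act_act_inv, sub_self]
    rw [this]; exact Submodule.zero_mem _
  | zero =>
    have : ((fun y => s ((0 : M → Qb) (act s⁻¹ y))) - 0) = 0 := by
      funext y; simp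
    rw [this]; exact Submodule.zero_mem _
  | add a b _ _ ha hb =>
    have : ((fun y => s ((a + b) (act s⁻¹ y))) - (a + b)) =
        ((fun y => s (a (act s⁻¹ y))) - a) + ((fun y => s (b (act s⁻¹ y))) - b) := by
      funext y
      simp only [Pi.sub_apply, Pi.add_apply, map_add]
      ring
    rw [this]; exact Submodule.add_mem _ ha hb
  | smul a x hxO hx =>
    have hsa : s (a : Qb) ∈ A := mem_of_mem_inertia hs a.2
    have hsa' : s (a : Qb) - a ∈ A.nonunits := sub_mem_nonunits_of_mem_inertia hs a.2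
    have : ((fun y => s ((a • x) (act s⁻¹ y))) - a • x) =
        (⟨s (a : Qb), hsa⟩ : A) • ((fun y => s (x (act s⁻¹ y))) - x) +
          fun y => (s (a : Qb) - a) * x y := by
      funext y
      simp only [Pi.sub_apply, Pi.add_apply, smul_fun_apply, map_mul]
      ring
    rw [this]
    exact Submodule.add_mem _ (Submodule.smul_mem _ _ hx) (nonunit_mul_OA hsa' hxO)

/-- **(O3)** -/
theorem small_of_mem_aug (e : M → M → Qb)
    (hmulL : ∀ x x' y, e (x + x') y = e x y * e x' y)
    (hne : ∀ x y, e x y ≠ 0)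
    (heq : ∀ σ x y, e (act σ x) (act σ y) = σ (e x y))
    (hint : ∀ x, e x ∈ Submodule.span A
      {φ : M → Qb | (∀ σ y, φ (act σ y) = σ (φ y)) ∧ ∀ y, φ y ∈ A})
    (x : M) (hx : x ∈ aug (A.inertiaSubgroupIn ℚ) act) :
    ∃ (n : ℕ) (m : Fin n → Qb) (φ : Fin n → M → Qb), (∀ k, m k ∈ A.nonunits) ∧
      (∀ k, (∀ σ y, φ k (act σ y) = σ (φ k y)) ∧ ∀ y, φ k y ∈ A) ∧
      ∀ y, e x y - 1 = ∑ k, m k * φ k y := by
  have hO : ∀ x, e x ∈ OA act A := hint
  have he0 : ∀ y, e 0 y = 1 := by
    intro y
    have h1 := hmulL 0 0 y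
    rw [add_zero] at h1
    exact (mul_eq_left₀ (hne 0 y)).1 h1.symm
  have hneg : ∀ x y, e x y * e (-x) y = 1 := by
    intro x y
    rw [← hmulL, add_neg_cancel, he0]
  have hmem : (e x - 1) ∈ MA act A := by
    unfold aug at hx
    induction hx using AddSubgroup.closure_induction with
    | mem x hx =>
      obtain ⟨s, hs, z, rfl⟩ := hx
      have h1 := twist_sub_mem hs (hO z)
      have h2 : (fun y => s (e z (act s⁻¹ y))) = e (act s z) := by
        funext y
        rw [← heq, act_act_inv]
      rw [h2] at h1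
      have h3 : e (act s z - z) - 1 = (e (act s z) - e z) * e (-z) := by
        funext y
        simp only [Pi.sub_apply, Pi.mul_apply, Pi.one_apply]
        rw [sub_eq_add_neg (act s z) z, hmulL, sub_mul, hneg]
      rw [h3]
      exact MA_mul_OA h1 (hO _)
    | zero =>
      have : e 0 - 1 = 0 := by
        funext y
        simp only [Pi.sub_apply, Pi.one_apply, Pi.zero_apply, he0, sub_self]
      rw [this]; exact Submodule.zero_mem _
    | add a b _ _ ha hb =>
      have : e (a + b) - 1 = (e a - 1) * e b + (e b - 1) := by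
        funext y
        simp only [Pi.sub_apply, Pi.mul_apply, Pi.one_apply, Pi.add_apply, hmulL]
        ring
      rw [this]
      exact Submodule.add_mem _ (MA_mul_OA ha (hO _)) hb
    | neg a _ ha =>
      have : e (-a) - 1 = - ((e a - 1) * e (-a)) := by
        funext y
        simp only [Pi.sub_apply, Pi.mul_apply, Pi.one_apply, Pi.neg_apply, sub_mul, hneg]
        ring
      rw [this]
      exact Submodule.neg_mem _ (MA_mul_OA ha (hO _))
  obtain ⟨n, f, g, hsum⟩ := Submodule.mem_span_set'.1 hmem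
  choose m hm φ hφ hg using fun i => (g i).2
  refine ⟨n, fun k => (f k : Qb) * m k, φ, fun k => ?_, hφ, fun y => ?_⟩
  · rw [ValuationSubring.mem_nonunits_iff, map_mul, mul_comm]
    exact mul_lt_one_of_lt_of_le ((ValuationSubring.mem_nonunits_iff A).1 (hm k))
      ((A.valuation_le_one_iff _).2 (f k).2)
  · have h1 := congrFun hsum y
    rw [Finset.sum_apply] at h1
    simp only [Pi.sub_apply, Pi.one_apply] at h1
    rw [← h1]
    refine Finset.sum_congr rfl fun k _ => ?_
    rw [smul_fun_apply, hg k]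
    ring

end Fermat.Agent.S33.OP
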