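import Fermat.Agent.S33.OP.Key
import Fermat.Agent.S33.OP.Small
import Fermat.Agent.S33.O.RIBase
import Fermat.Agent.S33.O.Root
import Fermat.Agent.S32.Dual

set_option autoImplicit false

/-!
# S33 / OP / Main : the pairing criterion of S19 implies `NT (I.M)` (`p` odd)
-/

namespace Fermat.Agent.S33.OP

local notation "Qb" => AlgebraicClosure ℚ
local notation "Gal" => (AlgebraicClosure ℚ ≃ₐ[ℚ] AlgebraicClosure ℚ)

/-- **(O4)** the pairing criterion implies `NT (I.M)`. -/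
theorem nt_of_pairing {p : ℕ} (hp : p.Prime) (hp2 : p ≠ 2) (n : ℕ)
    {M : Type} [AddCommGroup M] [Finite M] (act : Gal →* AddMonoid.End M)
    (e : M → M → Qb)
    (hmulL : ∀ x x' y, e (x + x') y = e x y * e x' y)
    (hmulR : ∀ x y y', e x (y + y') = e x y * e x y')
    (hne : ∀ x y, e x y ≠ 0)
    (heq : ∀ σ x y, e (act σ x) (act σ y) = σ (e x y))
    (hnd : ∀ x, (∀ y, e x y = 1) → x = 0)
    (htors : ∀ x : M, p ^ n • x = 0)
    (A : ValuationSubring Qb) (hA : A.LiesOverPrime p)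
    (hint : ∀ x, e x ∈ Submodule.span A
      {φ : M → Qb | (∀ σ y, φ (act σ y) = σ (φ y)) ∧ ∀ y, φ y ∈ A}) :
    NT (A.inertiaSubgroupIn ℚ) act (aug (A.inertiaSubgroupIn ℚ) act) := by
  intro K1 K2 _ h1 hst htriv x hx
  by_contra hxK2
  obtain ⟨y0, hy0, hne1⟩ := Fermat.Agent.S32.exists_sep e hmulL hmulR hne hnd K2 x hxK2
  set I := A.inertiaSubgroupIn ℚ with hI
  let S : Set M := {y | ∀ k ∈ K2, e k y = 1}
  have hS : ∀ s ∈ I, ∀ y ∈ S, act s y ∈ S := by
    intro s hs y hy k hk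
    have h2 : act s⁻¹ k ∈ K2 := hst _ (I.inv_mem hs) k hk
    have h3 := heq s (act s⁻¹ k) y
    rw [act_act_inv, hy _ h2, map_one] at h3
    exact h3
  obtain ⟨r, m, φ, hm, hφ, hsum⟩ := small_of_mem_aug e hmulL hne heq hint x (h1 hx)
  have hf : ∀ s ∈ I, ∀ y ∈ S, (fun y => e x y - 1) (act s y) = s ((fun y => e x y - 1) y) := by
    intro s hs y hy
    have h2 : act s⁻¹ x - x ∈ K2 := htriv _ (I.inv_mem hs) x hx
    have h3 := heq s (act s⁻¹ x) y
    rw [act_act_inv] at h3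
    have h4 : e (act s⁻¹ x) y = e x y := by
      have : act s⁻¹ x = x + (act s⁻¹ x - x) := by abel
      rw [this, hmulL, hy _ h2, mul_one]
    show e x (act s y) - 1 = s (e x y - 1)
    rw [h3, h4, map_sub, map_one]
  obtain ⟨b, hb, hfb⟩ := key (p : Qb) A I (fun a ha hfix => RIB.U A hp hA hfix ha) act S hS
    Finset.univ φ (fun k _ s _ y => (hφ k).1 s y) (fun k _ y => (hφ k).2 y) m (fun k _ => hm k)
    (fun y => e x y - 1) hf (fun y _ => hsum y) y0 hy0
  have he0 : ∀ y, e 0 y = 1 := by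
    intro y
    have h1 := hmulL 0 0 y
    rw [add_zero] at h1
    exact (mul_eq_left₀ (hne 0 y)).1 h1.symm
  have hpow : ∀ k : ℕ, e (k • x) y0 = e x y0 ^ k := by
    intro k
    induction k with
    | zero => rw [zero_smul, he0, pow_zero]
    | succ k ih => rw [succ_nsmul, hmulL, ih, pow_succ]
  have hζ : e x y0 ^ p ^ n = 1 := by rw [← hpow, htors, he0]
  obtain ⟨a, ha, hpa⟩ := O.root_sq_dvd hp hp2 A n (e x y0) hζ hne1
  have hfb' : e x y0 - 1 = (p : Qb) * b := hfb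
  have hp0 : (p : Qb) ≠ 0 := Nat.cast_ne_zero.2 hp.ne_zero
  have h5 : (p : Qb) * (b ^ 2 * a) = 1 := by
    have h6 : (p : Qb) * ((p : Qb) * (b ^ 2 * a)) = (p : Qb) * 1 := by
      rw [mul_one]
      nth_rewrite 3 [hpa]
      rw [hfb']
      ring
    exact mul_left_cancel₀ hp0 h6
  have hv : A.valuation (p : Qb) < 1 := (ValuationSubring.mem_nonunits_iff A).1 hA
  have hv2 : A.valuation (b ^ 2 * a) ≤ 1 :=
    (A.valuation_le_one_iff _).2 (A.mul_mem _ _ (A.pow_mem hb 2) ha)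
  have := congrArg A.valuation h5
  rw [map_mul, map_one] at this
  exact absurd this (ne_of_lt (mul_lt_one_of_lt_of_le hv hv2))

end Fermat.Agent.S33.OP
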